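import Fermat.Agent.LT.T2.H197.S2Core
import Fermat.Agent.LT.H556.A0

/-!
# Row LT, tower T2, sub-leaf T2.07.31 (helper197): the matrix part

Imports: `S2Core` (Mathlib only) and the vocabulary `LT/H556/A0.lean` (byte-identical copy).

* `mz197 d z` : the representative `(1 + |z|²)^{-1/2} [[1, -z̄], [z, 1]] · torus d` of the point
  `z` of `ℂP¹ = U(2) / (U(1) × U(1))`;
* `euler_factor197` : `rotZ α * rotY β * torus d = mz197 d (e^{-iα} tan (β/2)) * rotZ α`;
* `coset_factor197` : `k * mz197 d z = mz197 d ((r + s z) / (p + q z)) * D` with `D` unitary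
  diagonal, for `k = [[p, q], [r, s]]` unitary;
* `subS2Rot_stmt197` : the statement of `T2.H429.SubS2Rot429`, spelled out.
-/

set_option autoImplicit false

open MeasureTheory Complex Set
open Fermat.Agent.LT.H556.A0
open scoped ComplexConjugate Matrix

noncomputable section

namespace Fermat.Agent.LT.T2.H197

/-- The normalising factor `1 / √(1 + |z|²)`. -/
def cz197 (z : ℂ) : ℝ := (Real.sqrt (1 + Complex.normSq z))⁻¹

theorem cz_pos197 (z : ℂ) : 0 < cz197 z :=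
  inv_pos.mpr (Real.sqrt_pos.mpr (one_add_normSq_pos197 z))

theorem cz_sq197 (z : ℂ) : cz197 z ^ 2 * (1 + Complex.normSq z) = 1 := by
  have h := one_add_normSq_pos197 z
  rw [cz197, inv_pow, Real.sq_sqrt h.le]
  exact inv_mul_cancel₀ h.ne'

theorem continuous_cz197 : Continuous cz197 := by
  unfold cz197
  refine Continuous.inv₀ ?_ fun z => ?_
  · exact Real.continuous_sqrt.comp (continuous_const.add Complex.continuous_normSq)
  · exact (Real.sqrt_pos.mpr (one_add_normSq_pos197 z)).ne'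

/-- `cz197` is characterised by positivity and its square. -/
theorem cz_eq197 (z : ℂ) (c : ℝ) (hc : 0 < c) (h : c ^ 2 * (1 + Complex.normSq z) = 1) :
    cz197 z = c := by
  have h1 := cz_sq197 z
  have h2 := cz_pos197 z
  have h3 := one_add_normSq_pos197 z
  have h4 : cz197 z ^ 2 = c ^ 2 := by
    have : (cz197 z ^ 2 - c ^ 2) * (1 + Complex.normSq z) = 0 := by linarith
    rcases mul_eq_zero.mp this with h5 | h5
    · linarith
    · exact absurd h5 h3.ne'
  exact (pow_left_inj₀ h2.le hc.le two_ne_zero).mp h4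

/-- The coset representative of the point `z` of the Riemann sphere, moved by `torus d`. -/
def mz197 (d : ℝ) (z : ℂ) : Matrix (Fin 2) (Fin 2) ℂ :=
  !![(cz197 z : ℂ) * ((Real.exp (d / 2) : ℝ) : ℂ),
      -((cz197 z : ℂ) * conj z * ((Real.exp (-(d / 2)) : ℝ) : ℂ));
     (cz197 z : ℂ) * z * ((Real.exp (d / 2) : ℝ) : ℂ),
      (cz197 z : ℂ) * ((Real.exp (-(d / 2)) : ℝ) : ℂ)]

theorem exp_half_mul197 (d : ℝ) :
    ((Real.exp (d / 2) : ℝ) : ℂ) * ((Real.exp (-(d / 2)) : ℝ) : ℂ) = 1 := by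
  rw [← Complex.ofReal_mul, ← Real.exp_add, add_neg_cancel, Real.exp_zero, Complex.ofReal_one]

theorem cz_sq_c197 (z : ℂ) : (cz197 z : ℂ) ^ 2 * (1 + z * conj z) = 1 := by
  rw [Complex.mul_conj]
  exact_mod_cast cz_sq197 z

theorem det_mz197 (d : ℝ) (z : ℂ) : (mz197 d z).det = 1 := by
  rw [mz197, Matrix.det_fin_two_of]
  linear_combination (1 + z * conj z) * (cz197 z : ℂ) ^ 2 * exp_half_mul197 d + cz_sq_c197 z

theorem continuous_mz197 (d : ℝ) : Continuous (mz197 d) := by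
  have hc : Continuous fun z : ℂ => (cz197 z : ℂ) :=
    Complex.continuous_ofReal.comp continuous_cz197
  refine continuous_matrix fun i j => ?_
  fin_cases i <;> fin_cases j
  · show Continuous fun z : ℂ => (cz197 z : ℂ) * ((Real.exp (d / 2) : ℝ) : ℂ)
    exact hc.mul continuous_const
  · show Continuous fun z : ℂ => -((cz197 z : ℂ) * conj z * ((Real.exp (-(d / 2)) : ℝ) : ℂ))
    exact ((hc.mul Complex.continuous_conj).mul continuous_const).neg
  · show Continuous fun z : ℂ => (cz197 z : ℂ) * z * ((Real.exp (d / 2) : ℝ) : ℂ)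
    exact (hc.mul continuous_id).mul continuous_const
  · show Continuous fun z : ℂ => (cz197 z : ℂ) * ((Real.exp (-(d / 2)) : ℝ) : ℂ)
    exact hc.mul continuous_const

/-! ## Euler angles -/

theorem rotZ_exp_mul197 (α : ℝ) :
    Complex.exp (Complex.I * ((α / 2 : ℝ) : ℂ)) * Complex.exp (-(Complex.I * ((α / 2 : ℝ) : ℂ)))
      = 1 := by
  rw [← Complex.exp_add, add_neg_cancel, Complex.exp_zero]

theorem exp_neg_I197 (α : ℝ) :
    Complex.exp (-(Complex.I * (α : ℂ)))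
      = Complex.exp (-(Complex.I * ((α / 2 : ℝ) : ℂ)))
        * Complex.exp (-(Complex.I * ((α / 2 : ℝ) : ℂ))) := by
  rw [← Complex.exp_add]
  congr 1
  push_cast
  ring

theorem conj_exp_neg_I197 (α : ℝ) :
    conj (Complex.exp (-(Complex.I * (α : ℂ))))
      = Complex.exp (Complex.I * ((α / 2 : ℝ) : ℂ))
        * Complex.exp (Complex.I * ((α / 2 : ℝ) : ℂ)) := by
  rw [← Complex.exp_conj, ← Complex.exp_add]
  congr 1
  simp only [map_neg, map_mul, Complex.conj_I, Complex.conj_ofReal]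
  push_cast
  ring

theorem normSq_exp_neg_I197 (α : ℝ) : Complex.normSq (Complex.exp (-(Complex.I * (α : ℂ)))) = 1 := by
  rw [Complex.normSq_eq_norm_sq, Complex.norm_exp]
  simp

theorem cz_euler197 (α β : ℝ) (hβ : 0 < Real.cos (β / 2)) :
    cz197 (Complex.exp (-(Complex.I * (α : ℂ))) * ((Real.tan (β / 2) : ℝ) : ℂ))
      = Real.cos (β / 2) := by
  refine cz_eq197 _ _ hβ ?_
  rw [Complex.normSq_mul, normSq_exp_neg_I197, Complex.normSq_ofReal, Real.tan_eq_sin_div_cos]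
  have h := Real.sin_sq_add_cos_sq (β / 2)
  field_simp
  linarith

theorem mat_ext197 {a b c d a' b' c' d' : ℂ} (h1 : a = a') (h2 : b = b') (h3 : c = c')
    (h4 : d = d') : (!![a, b; c, d] : Matrix (Fin 2) (Fin 2) ℂ) = !![a', b'; c', d'] := by
  subst h1 h2 h3 h4
  rfl

theorem conjTranspose_fin_two197 (a b c d : ℂ) :
    (!![a, b; c, d] : Matrix (Fin 2) (Fin 2) ℂ).conjTranspose = !![conj a, conj c; conj b, conj d] := by
  ext i j
  fin_cases i <;> fin_cases j <;> rfl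

theorem rotZ_unitary197 (α : ℝ) : rotZ α * (rotZ α).conjTranspose = 1 := by
  have h1 : conj (Complex.exp (Complex.I * ((α / 2 : ℝ) : ℂ)))
      = Complex.exp (-(Complex.I * ((α / 2 : ℝ) : ℂ))) := by
    rw [← Complex.exp_conj]
    congr 1
    simp only [map_mul, Complex.conj_I, Complex.conj_ofReal]
    ring
  have h2 : conj (Complex.exp (-(Complex.I * ((α / 2 : ℝ) : ℂ))))
      = Complex.exp (Complex.I * ((α / 2 : ℝ) : ℂ)) := by
    rw [← h1, Complex.conj_conj]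
  have h3 := rotZ_exp_mul197 α
  rw [rotZ, conjTranspose_fin_two197, Matrix.mul_fin_two, Matrix.one_fin_two, h1, h2]
  refine mat_ext197 ?_ ?_ ?_ ?_
  · linear_combination h3
  · simp
  · simp
  · linear_combination h3

theorem euler_factor197 (d α β : ℝ) (hβ : 0 < Real.cos (β / 2)) :
    rotZ α * rotY β * torus d
      = mz197 d (Complex.exp (-(Complex.I * (α : ℂ))) * ((Real.tan (β / 2) : ℝ) : ℂ))
          * rotZ α := by
  have hab := rotZ_exp_mul197 α
  have hz := exp_neg_I197 α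
  have hzc := conj_exp_neg_I197 α
  have hcz := cz_euler197 α β hβ
  have ht : ((Real.tan (β / 2) : ℝ) : ℂ) * ((Real.cos (β / 2) : ℝ) : ℂ)
      = ((Real.sin (β / 2) : ℝ) : ℂ) := by
    rw [← Complex.ofReal_mul, Real.tan_mul_cos hβ.ne']
  have hconj : conj (Complex.exp (-(Complex.I * (α : ℂ))) * ((Real.tan (β / 2) : ℝ) : ℂ))
      = Complex.exp (Complex.I * ((α / 2 : ℝ) : ℂ)) * Complex.exp (Complex.I * ((α / 2 : ℝ) : ℂ))
        * ((Real.tan (β / 2) : ℝ) : ℂ) := by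
    rw [map_mul, hzc, Complex.conj_ofReal]
  rw [rotZ, rotY, torus, mz197, Matrix.mul_fin_two, Matrix.mul_fin_two, Matrix.mul_fin_two,
    hcz, hconj, hz]
  refine mat_ext197 ?_ ?_ ?_ ?_
  · ring
  · linear_combination
      (Complex.exp (Complex.I * ((α / 2 : ℝ) : ℂ)) * ((Real.exp (-(d / 2)) : ℝ) : ℂ)) * ht
      + (Complex.exp (Complex.I * ((α / 2 : ℝ) : ℂ)) * ((Real.tan (β / 2) : ℝ) : ℂ)
        * ((Real.cos (β / 2) : ℝ) : ℂ) * ((Real.exp (-(d / 2)) : ℝ) : ℂ)) * hab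
  · linear_combination
      (-(Complex.exp (-(Complex.I * ((α / 2 : ℝ) : ℂ))) * ((Real.exp (d / 2) : ℝ) : ℂ))) * ht
      - (Complex.exp (-(Complex.I * ((α / 2 : ℝ) : ℂ))) * ((Real.tan (β / 2) : ℝ) : ℂ)
        * ((Real.cos (β / 2) : ℝ) : ℂ) * ((Real.exp (d / 2) : ℝ) : ℂ)) * hab
  · ring

/-! ## Unitary `2 × 2` matrices -/

theorem unitary_rows197 (k : Matrix (Fin 2) (Fin 2) ℂ) (hk : k * k.conjTranspose = 1) :
    k 0 0 * conj (k 0 0) + k 0 1 * conj (k 0 1) = 1 ∧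
    k 0 0 * conj (k 1 0) + k 0 1 * conj (k 1 1) = 0 ∧
    k 1 0 * conj (k 0 0) + k 1 1 * conj (k 0 1) = 0 ∧
    k 1 0 * conj (k 1 0) + k 1 1 * conj (k 1 1) = 1 := by
  have h00 := congrFun (congrFun hk 0) 0
  have h01 := congrFun (congrFun hk 0) 1
  have h10 := congrFun (congrFun hk 1) 0
  have h11 := congrFun (congrFun hk 1) 1
  simp only [Matrix.mul_apply, Fin.sum_univ_two, Matrix.conjTranspose_apply, Complex.star_def,
    Matrix.one_apply_eq, Matrix.one_apply_ne, ne_eq, zero_ne_one, one_ne_zero,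
    not_false_eq_true] at h00 h01 h10 h11
  exact ⟨h00, h01, h10, h11⟩

theorem unitary_cols197 (k : Matrix (Fin 2) (Fin 2) ℂ) (hk : k * k.conjTranspose = 1) :
    conj (k 0 0) * k 0 0 + conj (k 1 0) * k 1 0 = 1 ∧
    conj (k 0 0) * k 0 1 + conj (k 1 0) * k 1 1 = 0 ∧
    conj (k 0 1) * k 0 0 + conj (k 1 1) * k 1 0 = 0 ∧
    conj (k 0 1) * k 0 1 + conj (k 1 1) * k 1 1 = 1 := by
  have hk' : k.conjTranspose * k = 1 := mul_eq_one_comm.mp hk
  have h00 := congrFun (congrFun hk' 0) 0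
  have h01 := congrFun (congrFun hk' 0) 1
  have h10 := congrFun (congrFun hk' 1) 0
  have h11 := congrFun (congrFun hk' 1) 1
  simp only [Matrix.mul_apply, Fin.sum_univ_two, Matrix.conjTranspose_apply, Complex.star_def,
    Matrix.one_apply_eq, Matrix.one_apply_ne, ne_eq, zero_ne_one, one_ne_zero,
    not_false_eq_true] at h00 h01 h10 h11
  exact ⟨h00, h01, h10, h11⟩

/-- The relations `s = δ p̄`, `r = -δ q̄`, `q = -δ r̄`, `p = δ s̄` of a unitary matrix. -/
theorem unitary_adj197 (k : Matrix (Fin 2) (Fin 2) ℂ) (hk : k * k.conjTranspose = 1) :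
    (k 0 0 * k 1 1 - k 0 1 * k 1 0) * conj (k 0 0) = k 1 1 ∧
    (k 0 0 * k 1 1 - k 0 1 * k 1 0) * conj (k 0 1) = -k 1 0 ∧
    (k 0 0 * k 1 1 - k 0 1 * k 1 0) * conj (k 1 0) = -k 0 1 ∧
    (k 0 0 * k 1 1 - k 0 1 * k 1 0) * conj (k 1 1) = k 0 0 := by
  obtain ⟨h1, h2, h3, h4⟩ := unitary_rows197 k hk
  refine ⟨?_, ?_, ?_, ?_⟩
  · linear_combination (k 1 1) * h1 - (k 0 1) * h3
  · linear_combination (-(k 1 0)) * h1 + (k 0 0) * h3
  · linear_combination (k 1 1) * h2 - (k 0 1) * h4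
  · linear_combination (-(k 1 0)) * h2 + (k 0 0) * h4

theorem unitary_det197 (k : Matrix (Fin 2) (Fin 2) ℂ) (hk : k * k.conjTranspose = 1) :
    (k 0 0 * k 1 1 - k 0 1 * k 1 0) * conj (k 0 0 * k 1 1 - k 0 1 * k 1 0) = 1 := by
  obtain ⟨h1, h2, h3, h4⟩ := unitary_adj197 k hk
  obtain ⟨g1, g2, g3, g4⟩ := unitary_rows197 k hk
  simp only [map_sub, map_mul]
  linear_combination (conj (k 1 1)) * h1 - (conj (k 1 0)) * h2 + g4

theorem unitary_normSq197 (k : Matrix (Fin 2) (Fin 2) ℂ) (hk : k * k.conjTranspose = 1) (z : ℂ) :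
    Complex.normSq (k 0 0 + k 0 1 * z) + Complex.normSq (k 1 0 + k 1 1 * z)
      = 1 + Complex.normSq z := by
  obtain ⟨c1, c2, c3, c4⟩ := unitary_cols197 k hk
  apply Complex.ofReal_injective
  push_cast
  rw [← Complex.mul_conj, ← Complex.mul_conj, ← Complex.mul_conj]
  simp only [map_add, map_mul]
  linear_combination c1 + (z * conj z) * c4 + z * c2 + conj z * c3

theorem unitary_det_normSq197 (k : Matrix (Fin 2) (Fin 2) ℂ) (hk : k * k.conjTranspose = 1) :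
    Complex.normSq (k 0 0 * k 1 1 - k 0 1 * k 1 0) = 1 := by
  apply Complex.ofReal_injective
  rw [← Complex.mul_conj]
  push_cast
  exact unitary_det197 k hk

theorem diag_unitary197 (x y : ℂ) (hx : x * conj x = 1) (hy : y * conj y = 1) :
    (!![x, 0; 0, y] : Matrix (Fin 2) (Fin 2) ℂ) * (!![x, 0; 0, y]).conjTranspose = 1 := by
  rw [conjTranspose_fin_two197, Matrix.mul_fin_two, Matrix.one_fin_two]
  refine mat_ext197 ?_ ?_ ?_ ?_
  · simpa using hx
  · simp
  · simp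
  · simpa using hy

theorem unitary_mul197 (k l : Matrix (Fin 2) (Fin 2) ℂ) (hk : k * k.conjTranspose = 1)
    (hl : l * l.conjTranspose = 1) : (k * l) * (k * l).conjTranspose = 1 := by
  rw [Matrix.conjTranspose_mul, Matrix.mul_assoc, ← Matrix.mul_assoc l, hl, Matrix.one_mul, hk]

theorem cz_moebius197 (k : Matrix (Fin 2) (Fin 2) ℂ) (hk : k * k.conjTranspose = 1) (z : ℂ)
    (hu : k 0 0 + k 0 1 * z ≠ 0) :
    cz197 ((k 1 0 + k 1 1 * z) / (k 0 0 + k 0 1 * z)) = ‖k 0 0 + k 0 1 * z‖ * cz197 z := by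
  have hn := unitary_normSq197 k hk z
  have hN : 0 < Complex.normSq (k 0 0 + k 0 1 * z) := Complex.normSq_pos.mpr hu
  refine cz_eq197 _ _ (mul_pos (norm_pos_iff.mpr hu) (cz_pos197 z)) ?_
  rw [map_div₀, mul_pow, ← Complex.normSq_eq_norm_sq]
  have h1 := cz_sq197 z
  generalize Complex.normSq (k 0 0 + k 0 1 * z) = A at hn hN ⊢
  generalize Complex.normSq (k 1 0 + k 1 1 * z) = B at hn ⊢
  field_simp
  linear_combination (cz197 z ^ 2) * hn + h1

/-- The matrix identity behind `k · [z] = [(r + s z) / (p + q z)]`, in coordinates. -/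
theorem coset_factor_aux197 (d : ℝ) (p q r s z : ℂ)
    (h1 : (p * s - q * r) * conj p = s) (h2 : (p * s - q * r) * conj q = -r)
    (h3 : (p * s - q * r) * conj r = -q) (h4 : (p * s - q * r) * conj s = p)
    (hu : p + q * z ≠ 0)
    (hcw : cz197 ((r + s * z) / (p + q * z)) = ‖p + q * z‖ * cz197 z) :
    (!![p, q; r, s] : Matrix (Fin 2) (Fin 2) ℂ) * mz197 d z
      = mz197 d ((r + s * z) / (p + q * z))
        * !![(p + q * z) * ((‖p + q * z‖⁻¹ : ℝ) : ℂ), 0;
             0, (p * s - q * r) * (conj p + conj q * conj z) * ((‖p + q * z‖⁻¹ : ℝ) : ℂ)] := by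
  have hnu0 : (‖p + q * z‖ : ℝ) ≠ 0 := norm_ne_zero_iff.mpr hu
  have hni : ((‖p + q * z‖ : ℝ) : ℂ) * ((‖p + q * z‖⁻¹ : ℝ) : ℂ) = 1 := by
    rw [← Complex.ofReal_mul, mul_inv_cancel₀ hnu0, Complex.ofReal_one]
  have hw : (r + s * z) / (p + q * z) * (p + q * z) = r + s * z := div_mul_cancel₀ _ hu
  have hwc : conj ((r + s * z) / (p + q * z)) * (conj p + conj q * conj z)
      = conj r + conj s * conj z := by
    have := congrArg conj hw
    simpa only [map_mul, map_add] using this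
  rw [mz197, mz197, Matrix.mul_fin_two, Matrix.mul_fin_two, hcw, Complex.ofReal_mul]
  generalize ((‖p + q * z‖ : ℝ) : ℂ) = nu at hni ⊢
  generalize ((‖p + q * z‖⁻¹ : ℝ) : ℂ) = ni at hni ⊢
  generalize conj ((r + s * z) / (p + q * z)) = X at hwc ⊢
  generalize (r + s * z) / (p + q * z) = w at hw ⊢
  generalize ((cz197 z : ℝ) : ℂ) = c
  generalize ((Real.exp (d / 2) : ℝ) : ℂ) = e₁
  generalize ((Real.exp (-(d / 2)) : ℝ) : ℂ) = e₂
  refine mat_ext197 ?_ ?_ ?_ ?_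
  · linear_combination (-(c * e₁ * (p + q * z))) * hni
  · linear_combination (c * e₂ * (p * s - q * r) * X * (conj p + conj q * conj z)) * hni
      + (c * e₂ * (p * s - q * r)) * hwc + (c * e₂) * h3 + (c * e₂ * conj z) * h4
  · linear_combination (-(c * e₁ * w * (p + q * z))) * hni - (c * e₁) * hw
  · linear_combination (-(c * e₂ * (p * s - q * r) * (conj p + conj q * conj z))) * hni
      - (c * e₂) * h1 - (c * e₂ * conj z) * h2

theorem unit_aux197 (u : ℂ) (hu : u ≠ 0) :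
    (u * ((‖u‖⁻¹ : ℝ) : ℂ)) * conj (u * ((‖u‖⁻¹ : ℝ) : ℂ)) = 1 := by
  have h0 : ‖u‖ ≠ 0 := norm_ne_zero_iff.mpr hu
  rw [Complex.mul_conj, Complex.normSq_mul, Complex.normSq_ofReal, Complex.normSq_eq_norm_sq]
  norm_cast
  field_simp

theorem coset_factor197 (d : ℝ) (k : Matrix (Fin 2) (Fin 2) ℂ) (hk : k * k.conjTranspose = 1)
    (z : ℂ) (hu : k 0 0 + k 0 1 * z ≠ 0) :
    ∃ D : Matrix (Fin 2) (Fin 2) ℂ, D * D.conjTranspose = 1 ∧
      k * mz197 d z = mz197 d ((k 1 0 + k 1 1 * z) / (k 0 0 + k 0 1 * z)) * D := by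
  obtain ⟨h1, h2, h3, h4⟩ := unitary_adj197 k hk
  have hδ := unitary_det197 k hk
  have hcw := cz_moebius197 k hk z hu
  have haux := coset_factor_aux197 d (k 0 0) (k 0 1) (k 1 0) (k 1 1) z h1 h2 h3 h4 hu hcw
  rw [← Matrix.eta_fin_two k] at haux
  refine ⟨_, ?_, haux⟩
  have hx := unit_aux197 _ hu
  apply diag_unitary197
  · exact hx
  · have hy : (k 0 0 * k 1 1 - k 0 1 * k 1 0) * (conj (k 0 0) + conj (k 0 1) * conj z)
          * ((‖k 0 0 + k 0 1 * z‖⁻¹ : ℝ) : ℂ)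
        = (k 0 0 * k 1 1 - k 0 1 * k 1 0)
          * conj ((k 0 0 + k 0 1 * z) * ((‖k 0 0 + k 0 1 * z‖⁻¹ : ℝ) : ℂ)) := by
      simp only [map_mul, map_add, Complex.conj_ofReal]
      ring
    rw [hy]
    generalize (k 0 0 + k 0 1 * z) * ((‖k 0 0 + k 0 1 * z‖⁻¹ : ℝ) : ℂ) = X at hx ⊢
    rw [map_mul (starRingEnd ℂ) (k 0 0 * k 1 1 - k 0 1 * k 1 0) (conj X), Complex.conj_conj]
    linear_combination (conj X * X) * hδ + hx

/-! ## Compactness of `U(2)` and boundedness -/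

theorem isCompact_unitary197 :
    IsCompact {u : Matrix (Fin 2) (Fin 2) ℂ | u * u.conjTranspose = 1} := by
  have hcl : IsClosed {u : Matrix (Fin 2) (Fin 2) ℂ | u * u.conjTranspose = 1} :=
    isClosed_eq (continuous_id.matrix_mul continuous_id.matrix_conjTranspose) continuous_const
  have hbox : IsCompact (Set.univ.pi fun _ : Fin 2 => Set.univ.pi fun _ : Fin 2 =>
      Metric.closedBall (0 : ℂ) 1) :=
    isCompact_univ_pi fun _ => isCompact_univ_pi fun _ => isCompact_closedBall _ _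
  refine IsCompact.of_isClosed_subset hbox hcl ?_
  intro u hu
  have hu' : u ∈ Matrix.unitaryGroup (Fin 2) ℂ := Matrix.mem_unitaryGroup_iff.mpr hu
  intro i _ j _
  simpa using entry_norm_bound_of_unitary hu' i j

theorem det_torus197 (d : ℝ) : (torus d).det = 1 := by
  rw [torus, Matrix.det_fin_two_of]
  linear_combination exp_half_mul197 d

theorem det_ne_zero_of_unitary197 (k : Matrix (Fin 2) (Fin 2) ℂ) (hk : k * k.conjTranspose = 1) :
    k.det ≠ 0 := by
  intro h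
  have := congrArg Matrix.det hk
  rw [Matrix.det_mul, h, zero_mul, Matrix.det_one] at this
  exact zero_ne_one this

/-- The unitary coset representative of the point `z`. -/
def nz197 (z : ℂ) : Matrix (Fin 2) (Fin 2) ℂ :=
  !![(cz197 z : ℂ), -((cz197 z : ℂ) * conj z); (cz197 z : ℂ) * z, (cz197 z : ℂ)]

theorem nz_mul_torus197 (d : ℝ) (z : ℂ) : nz197 z * torus d = mz197 d z := by
  rw [nz197, torus, mz197, Matrix.mul_fin_two]
  refine mat_ext197 ?_ ?_ ?_ ?_ <;> ring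

theorem nz_unitary197 (z : ℂ) : nz197 z * (nz197 z).conjTranspose = 1 := by
  have h := cz_sq_c197 z
  rw [nz197, conjTranspose_fin_two197, Matrix.mul_fin_two, Matrix.one_fin_two]
  simp only [map_neg, map_mul, Complex.conj_ofReal, Complex.conj_conj]
  refine mat_ext197 ?_ ?_ ?_ ?_
  · linear_combination h
  · ring
  · ring
  · linear_combination h

theorem bounded_aux197 (ψ : Matrix (Fin 2) (Fin 2) ℂ → ℂ)
    (hψ : ContinuousOn ψ {m | m.det ≠ 0}) (d : ℝ) :
    ∃ C : ℝ, ∀ u : Matrix (Fin 2) (Fin 2) ℂ, u * u.conjTranspose = 1 →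
      ‖ψ (u * torus d)‖ ≤ C := by
  have hc : ContinuousOn (fun u : Matrix (Fin 2) (Fin 2) ℂ => ψ (u * torus d))
      {u : Matrix (Fin 2) (Fin 2) ℂ | u * u.conjTranspose = 1} := by
    refine hψ.comp (continuous_id.matrix_mul continuous_const).continuousOn ?_
    intro u hu
    show (u * torus d).det ≠ 0
    rw [Matrix.det_mul, det_torus197, mul_one]
    exact det_ne_zero_of_unitary197 u hu
  obtain ⟨C, hC⟩ := isCompact_unitary197.exists_bound_of_continuousOn hc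
  exact ⟨C, fun u hu => hC u hu⟩

/-! ## The Euler-angle integral of a right `U(2)`-invariant function -/

theorem euler_to_plane197 (ψ : Matrix (Fin 2) (Fin 2) ℂ → ℂ)
    (hψ : ContinuousOn ψ {m | m.det ≠ 0})
    (hinv : ∀ m k : Matrix (Fin 2) (Fin 2) ℂ, k * k.conjTranspose = 1 → ψ (m * k) = ψ m)
    (k₀ : Matrix (Fin 2) (Fin 2) ℂ) (hk₀ : k₀ * k₀.conjTranspose = 1) (d : ℝ) :
    (∫ α in (0 : ℝ)..(2 * Real.pi), ∫ β in (0 : ℝ)..Real.pi,
        ψ (k₀ * (rotZ α * rotY β * torus d)) * ((Real.sin β : ℝ) : ℂ))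
      = ∫ z, ψ (k₀ * mz197 d z) * (rho197 z : ℂ) := by
  have hFc : Continuous fun z : ℂ => ψ (k₀ * mz197 d z) := by
    refine hψ.comp_continuous (continuous_const.matrix_mul (continuous_mz197 d)) fun z => ?_
    show (k₀ * mz197 d z).det ≠ 0
    rw [Matrix.det_mul, det_mz197, mul_one]
    exact det_ne_zero_of_unitary197 k₀ hk₀
  obtain ⟨C, hC⟩ := bounded_aux197 ψ hψ d
  have hFb : ∀ z : ℂ, ‖ψ (k₀ * mz197 d z)‖ ≤ C := by
    intro z
    have := hC (k₀ * nz197 z) (unitary_mul197 k₀ (nz197 z) hk₀ (nz_unitary197 z))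
    rwa [Matrix.mul_assoc, nz_mul_torus197] at this
  rw [← euler_eq_plane197 (fun z : ℂ => ψ (k₀ * mz197 d z)) hFc C hFb]
  refine intervalIntegral.integral_congr fun α _ => ?_
  refine intervalIntegral.integral_congr fun β hβ => ?_
  rw [Set.uIcc_of_le Real.pi_pos.le] at hβ
  show ψ (k₀ * (rotZ α * rotY β * torus d)) * ((Real.sin β : ℝ) : ℂ)
    = ψ (k₀ * mz197 d (Complex.exp (-(Complex.I * (α : ℂ))) * ((Real.tan (β / 2) : ℝ) : ℂ)))
      * ((Real.sin β : ℝ) : ℂ)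
  rcases eq_or_lt_of_le hβ.2 with h | h
  · rw [h, Real.sin_pi, Complex.ofReal_zero, mul_zero, mul_zero]
  · have hcos : 0 < Real.cos (β / 2) :=
      Real.cos_pos_of_mem_Ioo ⟨by linarith [hβ.1, Real.pi_pos], by linarith⟩
    rw [euler_factor197 d α β hcos, ← Matrix.mul_assoc, hinv _ _ (rotZ_unitary197 α)]

theorem plane_invariant197 (ψ : Matrix (Fin 2) (Fin 2) ℂ → ℂ)
    (hinv : ∀ m k : Matrix (Fin 2) (Fin 2) ℂ, k * k.conjTranspose = 1 → ψ (m * k) = ψ m)
    (k₀ : Matrix (Fin 2) (Fin 2) ℂ) (hk₀ : k₀ * k₀.conjTranspose = 1) (d : ℝ) :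
    ∫ z, ψ (k₀ * mz197 d z) * (rho197 z : ℂ) = ∫ z, ψ (mz197 d z) * (rho197 z : ℂ) := by
  rw [← moebius197 (fun w => ψ (mz197 d w)) (k₀ 0 0) (k₀ 0 1) (k₀ 1 0) (k₀ 1 1)
    (unitary_det_normSq197 k₀ hk₀) (unitary_normSq197 k₀ hk₀)]
  refine integral_congr_ae ?_
  have hS : ({z : ℂ | k₀ 0 0 + k₀ 0 1 * z = 0} : Set ℂ).Subsingleton := by
    intro z₁ h₁ z₂ h₂
    by_contra hne
    have h₁' : k₀ 0 0 + k₀ 0 1 * z₁ = 0 := h₁
    have h₂' : k₀ 0 0 + k₀ 0 1 * z₂ = 0 := h₂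
    have hq : k₀ 0 1 * (z₁ - z₂) = 0 := by linear_combination h₁' - h₂'
    have hq0 : k₀ 0 1 = 0 := by
      rcases mul_eq_zero.mp hq with h | h
      · exact h
      · exact absurd (sub_eq_zero.mp h) hne
    have hp0 : k₀ 0 0 = 0 := by rw [hq0, zero_mul, add_zero] at h₁'; exact h₁'
    have := (unitary_rows197 k₀ hk₀).1
    rw [hp0, hq0] at this
    simp at this
  have h0 : volume ({z : ℂ | k₀ 0 0 + k₀ 0 1 * z = 0} : Set ℂ) = 0 := hS.measure_zero volume
  filter_upwards [measure_eq_zero_iff_ae_notMem.mp h0] with z hz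
  obtain ⟨D, hD, hfac⟩ := coset_factor197 d k₀ hk₀ z hz
  show ψ (k₀ * mz197 d z) * (rho197 z : ℂ)
    = ψ (mz197 d ((k₀ 1 0 + k₀ 1 1 * z) / (k₀ 0 0 + k₀ 0 1 * z))) * (rho197 z : ℂ)
  rw [hfac, hinv _ _ hD]

/-- **T2.07.31, explicit statement**: invariance of `sin β dβ dα` under the rotations. -/
theorem subS2Rot_stmt197 (ψ : Matrix (Fin 2) (Fin 2) ℂ → ℂ)
    (hψ : ContinuousOn ψ {m | m.det ≠ 0})
    (hinv : ∀ m k : Matrix (Fin 2) (Fin 2) ℂ, k * k.conjTranspose = 1 → ψ (m * k) = ψ m)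
    (k₀ : Matrix (Fin 2) (Fin 2) ℂ) (hk₀ : k₀ * k₀.conjTranspose = 1) (d : ℝ) :
    (∫ α in (0 : ℝ)..(2 * Real.pi), ∫ β in (0 : ℝ)..Real.pi,
        ψ (k₀ * (rotZ α * rotY β * torus d)) * ((Real.sin β : ℝ) : ℂ))
      = ∫ α in (0 : ℝ)..(2 * Real.pi), ∫ β in (0 : ℝ)..Real.pi,
        ψ (rotZ α * rotY β * torus d) * ((Real.sin β : ℝ) : ℂ) := by
  rw [euler_to_plane197 ψ hψ hinv k₀ hk₀ d, plane_invariant197 ψ hinv k₀ hk₀ d]
  have h1 := euler_to_plane197 ψ hψ hinv 1 (by simp) d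
  simp only [Matrix.one_mul] at h1
  exact h1.symm

end Fermat.Agent.LT.T2.H197
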