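import Fermat.Agent.LT.T2.H429.OpsSpec
import Fermat.Agent.LT.T2.H197.S2Rot

/-!
# Row LT, tower T2, sub-leaf T2.07.31 (helper197): `SubS2Rot429`, verbatim

`subS2Rot197 : Fermat.Agent.LT.T2.H429.SubS2Rot429` against the byte-identical copy of
`LT/T2/H429/OpsSpec.lean` (helper429).
-/

set_option autoImplicit false

namespace Fermat.Agent.LT.T2.H197

/-- **T2.07.31** (registry row 1018): invariance of the measure `sin β dβ dα` of
`S² = U(2) / (U(1) × U(1))` under the rotations. -/
theorem subS2Rot197 : Fermat.Agent.LT.T2.H429.SubS2Rot429 :=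
  fun ψ hψ hinv k₀ hk₀ d => subS2Rot_stmt197 ψ hψ hinv k₀ hk₀ d

end Fermat.Agent.LT.T2.H197
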