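import Mathlib

/-!
# Row LT, tower T2, sub-leaf T2.07.31 (helper197): rotation invariance of `sin β dβ dα`

Mathlib only.  The round measure of `S² = ℂP¹` in the affine coordinate `z` is
`4 dA(z) / (1 + |z|²)²`:

* `euler_eq_plane197` : the Euler-angle integral `∫₀^{2π} ∫₀^π G(e^{-iα} tan(β/2)) sin β dβ dα`
  equals `∫_ℂ G(z) · 4 / (1 + |z|²)² dA(z)` (substitution `r = tan (β/2)`, polar coordinates);
* `moebius197` : invariance of `4 dA / (1 + |z|²)²` under the unitary Möbius maps
  `z ↦ (r + s z) / (p + q z)` (change of variables in `ℂ`).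
-/

set_option autoImplicit false

open MeasureTheory Complex Set

noncomputable section

namespace Fermat.Agent.LT.T2.H197

/-- The density of the round measure of the Riemann sphere in the affine coordinate. -/
def rho197 (z : ℂ) : ℝ := 4 / (1 + Complex.normSq z) ^ 2

theorem one_add_normSq_pos197 (z : ℂ) : 0 < 1 + Complex.normSq z := by
  have := Complex.normSq_nonneg z
  linarith

theorem continuous_rho197 : Continuous rho197 := by
  unfold rho197
  refine Continuous.div continuous_const ?_ fun z => ?_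
  · exact (continuous_const.add Complex.continuous_normSq).pow 2
  · exact pow_ne_zero 2 (one_add_normSq_pos197 z).ne'

theorem integrable_rho197 : Integrable rho197 (volume : Measure ℂ) := by
  have h := integrable_rpow_neg_one_add_norm_sq (E := ℂ) (μ := volume) (r := 4)
    (by rw [Complex.finrank_real_complex]; norm_num)
  have h2 := h.const_mul 4
  refine h2.congr (Filter.Eventually.of_forall fun z => ?_)
  simp only [rho197]
  have hpos : (0 : ℝ) < 1 + ‖z‖ ^ 2 := by positivity
  rw [Complex.normSq_eq_norm_sq, show (-4 / 2 : ℝ) = -(2 : ℕ) by norm_num, Real.rpow_neg hpos.le,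
    Real.rpow_natCast]
  ring

theorem integrable_mul_rho197 (G : ℂ → ℂ) (hG : Continuous G) (C : ℝ) (hC : ∀ z, ‖G z‖ ≤ C) :
    Integrable (fun z => G z * (rho197 z : ℂ)) (volume : Measure ℂ) :=
  Integrable.bdd_mul (c := C) integrable_rho197.ofReal hG.aestronglyMeasurable
    (Filter.Eventually.of_forall hC)

/-- The integrand in polar coordinates. -/
def polarFun197 (G : ℂ → ℂ) (p : ℝ × ℝ) : ℂ :=
  p.1 • (G (Complex.polarCoord.symm p) * (rho197 (Complex.polarCoord.symm p) : ℂ))

theorem continuous_polarFun197 (G : ℂ → ℂ) (hG : Continuous G) :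
    Continuous (polarFun197 G) := by
  unfold polarFun197
  have h1 : Continuous fun p : ℝ × ℝ => Complex.polarCoord.symm p := by
    simp only [Complex.polarCoord_symm_apply]
    fun_prop
  have h2 : Continuous fun p : ℝ × ℝ => (rho197 (Complex.polarCoord.symm p) : ℂ) :=
    Complex.continuous_ofReal.comp (continuous_rho197.comp h1)
  exact continuous_fst.smul ((hG.comp h1).mul h2)

theorem integrableOn_polarFun197 (G : ℂ → ℂ) (hG : Continuous G) (C : ℝ)
    (hC : ∀ z, ‖G z‖ ≤ C) :
    IntegrableOn (polarFun197 G) (Ioi (0 : ℝ) ×ˢ Ioo (-Real.pi) Real.pi) volume := by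
  refine ⟨(continuous_polarFun197 G hG).aestronglyMeasurable, ?_⟩
  have hI := integrable_mul_rho197 G hG C hC
  have h1 := Complex.lintegral_comp_polarCoord_symm (fun z => ‖G z * (rho197 z : ℂ)‖ₑ)
  have h2 : ∫⁻ p in Ioi (0 : ℝ) ×ˢ Ioo (-Real.pi) Real.pi, ‖polarFun197 G p‖ₑ
      = ∫⁻ p in polarCoord.target, ENNReal.ofReal p.1 •
          ‖G (Complex.polarCoord.symm p) * (rho197 (Complex.polarCoord.symm p) : ℂ)‖ₑ := by
    rw [polarCoord_target]
    refine setLIntegral_congr_fun (measurableSet_Ioi.prod measurableSet_Ioo) fun p hp => ?_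
    have hp1 : (0 : ℝ) < p.1 := hp.1
    simp only [polarFun197]
    rw [enorm_smul, smul_eq_mul, Real.enorm_eq_ofReal hp1.le]
  rw [HasFiniteIntegral, h2, h1]
  exact hI.2


theorem half_mem197 {β : ℝ} (hβ : β ∈ Ioo (0 : ℝ) Real.pi) :
    β / 2 ∈ Ioo (-(Real.pi / 2)) (Real.pi / 2) := by
  constructor
  · have := hβ.1
    have := Real.pi_pos
    linarith
  · have := hβ.2
    linarith

theorem cos_half_pos197 {β : ℝ} (hβ : β ∈ Ioo (0 : ℝ) Real.pi) : 0 < Real.cos (β / 2) :=
  Real.cos_pos_of_mem_Ioo (half_mem197 hβ)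

theorem image_tan_half197 : (fun β : ℝ => Real.tan (β / 2)) '' Ioo (0 : ℝ) Real.pi = Ioi 0 := by
  ext r
  constructor
  · rintro ⟨β, hβ, rfl⟩
    exact Real.tan_pos_of_pos_of_lt_pi_div_two (by have := hβ.1; linarith)
      (by have := hβ.2; linarith)
  · intro hr
    have hr' : (0 : ℝ) < r := hr
    refine ⟨2 * Real.arctan r, ⟨?_, ?_⟩, ?_⟩
    · have := Real.arctan_pos.2 hr'
      linarith
    · have := Real.arctan_lt_pi_div_two r
      linarith
    · show Real.tan (2 * Real.arctan r / 2) = r
      rw [mul_div_cancel_left₀ _ (two_ne_zero' ℝ), Real.tan_arctan]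

/-- The substitution `r = tan (β / 2)`. -/
theorem inner_subst197 (g : ℝ → ℂ) :
    ∫ β in (0 : ℝ)..Real.pi, g (Real.tan (β / 2)) * ((Real.sin β : ℝ) : ℂ)
      = ∫ r in Ioi (0 : ℝ), g r * ((r * (4 / (1 + r ^ 2) ^ 2) : ℝ) : ℂ) := by
  rw [intervalIntegral.integral_of_le Real.pi_pos.le, integral_Ioc_eq_integral_Ioo]
  have hderiv : ∀ β ∈ Ioo (0 : ℝ) Real.pi, HasDerivWithinAt (fun β : ℝ => Real.tan (β / 2))
      (1 / Real.cos (β / 2) ^ 2 * (1 / 2)) (Ioo (0 : ℝ) Real.pi) β := by
    intro β hβ
    have h1 := Real.hasDerivAt_tan (cos_half_pos197 hβ).ne'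
    have h2 : HasDerivAt (fun β : ℝ => β / 2) (1 / 2) β := by
      simpa using (hasDerivAt_id β).div_const 2
    exact (h1.comp β h2).hasDerivWithinAt
  have hinj : InjOn (fun β : ℝ => Real.tan (β / 2)) (Ioo (0 : ℝ) Real.pi) := by
    intro a ha b hb hab
    have := Real.injOn_tan (half_mem197 ha) (half_mem197 hb) hab
    linarith
  have key := integral_image_eq_integral_abs_deriv_smul measurableSet_Ioo hderiv hinj
    (fun r => g r * ((r * (4 / (1 + r ^ 2) ^ 2) : ℝ) : ℂ))
  rw [image_tan_half197] at key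
  rw [key]
  refine setIntegral_congr_fun measurableSet_Ioo fun β hβ => ?_
  have hc := cos_half_pos197 hβ
  have hsin : Real.sin β = 2 * Real.sin (β / 2) * Real.cos (β / 2) := by
    have := Real.sin_two_mul (β / 2)
    rw [mul_div_cancel₀ _ (two_ne_zero' ℝ)] at this
    exact this
  have htan : Real.tan (β / 2) = Real.sin (β / 2) / Real.cos (β / 2) := Real.tan_eq_sin_div_cos _
  have h1 : 1 + Real.tan (β / 2) ^ 2 = 1 / Real.cos (β / 2) ^ 2 := by
    rw [htan]
    field_simp
    have := Real.sin_sq_add_cos_sq (β / 2)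
    linarith
  have hR : |1 / Real.cos (β / 2) ^ 2 * (1 / 2)|
      * (Real.tan (β / 2) * (4 / (1 + Real.tan (β / 2) ^ 2) ^ 2)) = Real.sin β := by
    rw [abs_of_pos (by positivity), h1, hsin, htan]
    field_simp
    ring
  rw [Complex.real_smul, ← hR]
  push_cast
  ring


theorem det_mul197 (c : ℂ) :
    ((c • (1 : ℂ →L[ℂ] ℂ)).restrictScalars ℝ).det = Complex.normSq c := by
  have h : (((c • (1 : ℂ →L[ℂ] ℂ)).restrictScalars ℝ : ℂ →L[ℝ] ℂ) : ℂ →ₗ[ℝ] ℂ)
      = LinearMap.mul ℝ ℂ c := by
    ext <;> simp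
  rw [ContinuousLinearMap.det, h, ← Algebra.norm_complex_apply, Algebra.norm_apply]
  rfl

/-- **Möbius invariance** of the round measure of the Riemann sphere, affine coordinate. -/
theorem moebius197 (g : ℂ → ℂ) (p q r s : ℂ) (hδ : Complex.normSq (p * s - q * r) = 1)
    (hu : ∀ z : ℂ, Complex.normSq (p + q * z) + Complex.normSq (r + s * z)
      = 1 + Complex.normSq z) :
    ∫ z, g ((r + s * z) / (p + q * z)) * (rho197 z : ℂ) = ∫ w, g w * (rho197 w : ℂ) := by
  have hδ0 : p * s - q * r ≠ 0 := by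
    intro h
    rw [h, map_zero] at hδ
    exact zero_ne_one hδ
  set S : Set ℂ := {z | p + q * z ≠ 0} with hSdef
  set φ : ℂ → ℂ := fun z => (r + s * z) / (p + q * z) with hφ
  set f' : ℂ → (ℂ →L[ℝ] ℂ) := fun z =>
    ((((p * s - q * r) / (p + q * z) ^ 2) • (1 : ℂ →L[ℂ] ℂ)).restrictScalars ℝ) with hf'
  have hSo : IsOpen S := by
    have hc : Continuous fun z : ℂ => p + q * z := by fun_prop
    exact isOpen_ne_fun hc continuous_const
  have hS : MeasurableSet S := hSo.measurableSet
  have hderiv : ∀ z ∈ S, HasFDerivWithinAt φ (f' z) S z := by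
    intro z hz
    have h1 : HasDerivAt (fun z : ℂ => r + s * z) s z := by
      simpa using ((hasDerivAt_id z).const_mul s).const_add r
    have h2 : HasDerivAt (fun z : ℂ => p + q * z) q z := by
      simpa using ((hasDerivAt_id z).const_mul q).const_add p
    have h3 := h1.div h2 hz
    have h4 : s * (p + q * z) - (r + s * z) * q = p * s - q * r := by ring
    rw [h4] at h3
    have h5 := h3.hasFDerivAt.restrictScalars ℝ
    have h6 : (ContinuousLinearMap.restrictScalars ℝ
        (ContinuousLinearMap.toSpanSingleton ℂ ((p * s - q * r) / (p + q * z) ^ 2)))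
        = f' z := by
      ext x
      simp [hf', mul_comm]
    rw [h6] at h5
    exact h5.hasFDerivWithinAt
  have hinj : InjOn φ S := by
    intro z₁ h₁ z₂ h₂ h
    simp only [hφ] at h
    rw [div_eq_div_iff h₁ h₂] at h
    have h' : (p * s - q * r) * (z₁ - z₂) = 0 := by linear_combination h
    rcases mul_eq_zero.1 h' with h0 | h0
    · exact absurd h0 hδ0
    · exact sub_eq_zero.1 h0
  have key := integral_image_eq_integral_abs_det_fderiv_smul volume hS hderiv hinj
    (fun w => g w * (rho197 w : ℂ))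
  -- the two exceptional sets are null
  have hSc : (Sᶜ : Set ℂ).Subsingleton := by
    intro a ha b hb
    simp only [hSdef, mem_compl_iff, mem_ofPred_eq, not_not] at ha hb
    have hq : q ≠ 0 := by
      intro hq
      rw [hq, zero_mul, add_zero] at ha
      have := hu 0
      simp [ha, hq] at this
      have h1 : p * s - q * r = 0 := by rw [ha, hq]; ring
      exact hδ0 h1
    have : q * (a - b) = 0 := by linear_combination ha - hb
    rcases mul_eq_zero.1 this with h0 | h0
    · exact absurd h0 hq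
    · exact sub_eq_zero.1 h0
  have hS_ae : S =ᵐ[volume] (univ : Set ℂ) := by
    rw [ae_eq_univ]
    exact hSc.measure_zero volume
  have himg : ({w : ℂ | s - q * w ≠ 0} : Set ℂ) ⊆ φ '' S := by
    intro w hw
    simp only [mem_ofPred_eq] at hw
    refine ⟨(p * w - r) / (s - q * w), ?_, ?_⟩
    · simp only [hSdef, mem_ofPred_eq]
      have : p + q * ((p * w - r) / (s - q * w)) = (p * s - q * r) / (s - q * w) := by
        field_simp
        ring
      rw [this]
      exact div_ne_zero hδ0 hw
    · simp only [hφ]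
      have h1 : p + q * ((p * w - r) / (s - q * w)) = (p * s - q * r) / (s - q * w) := by
        field_simp
        ring
      have h2 : r + s * ((p * w - r) / (s - q * w)) = (p * s - q * r) * w / (s - q * w) := by
        rw [eq_div_iff hw, add_mul, mul_assoc, div_mul_cancel₀ _ hw]
        ring
      rw [h1, h2, div_div_div_cancel_right₀ hw, mul_div_cancel_left₀ _ hδ0]
  have hIc : ((φ '' S)ᶜ : Set ℂ).Subsingleton := by
    intro a ha b hb
    have ha' : ¬ (s - q * a ≠ 0) := fun h => ha (himg h)
    have hb' : ¬ (s - q * b ≠ 0) := fun h => hb (himg h)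
    simp only [not_not] at ha' hb'
    have hq : q ≠ 0 := by
      intro hq
      rw [hq, zero_mul, sub_zero] at ha'
      have h1 : p * s - q * r = 0 := by rw [ha', hq]; ring
      exact hδ0 h1
    have : q * (a - b) = 0 := by linear_combination hb' - ha'
    rcases mul_eq_zero.1 this with h0 | h0
    · exact absurd h0 hq
    · exact sub_eq_zero.1 h0
  have hI_ae : φ '' S =ᵐ[volume] (univ : Set ℂ) := by
    rw [ae_eq_univ]
    exact hIc.measure_zero volume
  -- the Jacobian identity
  have hjac : ∀ z ∈ S, |(f' z).det| • (g (φ z) * (rho197 (φ z) : ℂ))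
      = g (φ z) * (rho197 z : ℂ) := by
    intro z hz
    have hz' : Complex.normSq (p + q * z) ≠ 0 := by
      rw [Ne, Complex.normSq_eq_zero]; exact hz
    have hpos : 0 < Complex.normSq (p + q * z) := lt_of_le_of_ne (Complex.normSq_nonneg _)
      (Ne.symm hz')
    have hdet : (f' z).det = 1 / Complex.normSq (p + q * z) ^ 2 := by
      simp only [hf']
      rw [det_mul197, map_div₀, hδ, map_pow]
    have hφz : 1 + Complex.normSq (φ z)
        = (1 + Complex.normSq z) / Complex.normSq (p + q * z) := by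
      simp only [hφ]
      rw [map_div₀, ← hu z, eq_div_iff hz', add_mul, div_mul_cancel₀ _ hz']
      ring
    have h1 := one_add_normSq_pos197 z
    have hR : |(f' z).det| * rho197 (φ z) = rho197 z := by
      rw [hdet, abs_of_pos (by positivity), rho197, rho197, hφz]
      field_simp
    rw [Complex.real_smul, ← hR]
    push_cast
    ring
  calc ∫ z, g (φ z) * (rho197 z : ℂ)
      = ∫ z in S, g (φ z) * (rho197 z : ℂ) := by
        rw [← setIntegral_univ]
        exact setIntegral_congr_set hS_ae.symm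
    _ = ∫ z in S, |(f' z).det| • (g (φ z) * (rho197 (φ z) : ℂ)) := by
        refine setIntegral_congr_fun hS fun z hz => ?_
        exact (hjac z hz).symm
    _ = ∫ w in φ '' S, g w * (rho197 w : ℂ) := key.symm
    _ = ∫ w, g w * (rho197 w : ℂ) :=
        (setIntegral_congr_set hI_ae).trans setIntegral_univ


/-- The radial integral along the ray of argument `θ`. -/
def radial197 (G : ℂ → ℂ) (θ : ℝ) : ℂ :=
  ∫ r in Ioi (0 : ℝ), G (Complex.exp (Complex.I * (θ : ℂ)) * (r : ℂ))
    * ((r * (4 / (1 + r ^ 2) ^ 2) : ℝ) : ℂ)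

theorem radial_periodic197 (G : ℂ → ℂ) : Function.Periodic (radial197 G) (2 * Real.pi) := by
  intro θ
  unfold radial197
  have h : Complex.exp (Complex.I * ((θ + 2 * Real.pi : ℝ) : ℂ))
      = Complex.exp (Complex.I * (θ : ℂ)) := by
    rw [show Complex.I * ((θ + 2 * Real.pi : ℝ) : ℂ)
      = Complex.I * (θ : ℂ) + 2 * Real.pi * Complex.I by push_cast; ring]
    rw [Complex.exp_add, Complex.exp_two_pi_mul_I, mul_one]
  rw [h]

theorem polarFun_apply197 (G : ℂ → ℂ) (r θ : ℝ) :
    polarFun197 G (r, θ) = G (Complex.exp (Complex.I * (θ : ℂ)) * (r : ℂ))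
      * ((r * (4 / (1 + r ^ 2) ^ 2) : ℝ) : ℂ) := by
  have h1 : Complex.polarCoord.symm (r, θ) = Complex.exp (Complex.I * (θ : ℂ)) * (r : ℂ) := by
    rw [Complex.polarCoord_symm_apply, mul_comm Complex.I, Complex.exp_mul_I]
    push_cast
    ring
  have h2 : Complex.normSq (Complex.exp (Complex.I * (θ : ℂ)) * (r : ℂ)) = r ^ 2 := by
    rw [map_mul, Complex.normSq_eq_norm_sq, mul_comm Complex.I, Complex.norm_exp_ofReal_mul_I,
      Complex.normSq_ofReal]
    ring
  simp only [polarFun197]
  rw [h1, rho197, h2, Complex.real_smul]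
  push_cast
  ring

/-- **The Euler-angle integral in the affine coordinate of the Riemann sphere.** -/
theorem euler_eq_plane197 (G : ℂ → ℂ) (hG : Continuous G) (C : ℝ) (hC : ∀ z, ‖G z‖ ≤ C) :
    ∫ α in (0 : ℝ)..(2 * Real.pi), ∫ β in (0 : ℝ)..Real.pi,
        G (Complex.exp (-(Complex.I * (α : ℂ))) * ((Real.tan (β / 2) : ℝ) : ℂ))
          * ((Real.sin β : ℝ) : ℂ)
      = ∫ z, G z * (rho197 z : ℂ) := by
  -- the inner integral
  have hin : ∀ α : ℝ, (∫ β in (0 : ℝ)..Real.pi,
      G (Complex.exp (-(Complex.I * (α : ℂ))) * ((Real.tan (β / 2) : ℝ) : ℂ))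
        * ((Real.sin β : ℝ) : ℂ)) = radial197 G (-α) := by
    intro α
    have h := inner_subst197 (fun r => G (Complex.exp (-(Complex.I * (α : ℂ))) * (r : ℂ)))
    rw [h, radial197]
    have : Complex.exp (Complex.I * ((-α : ℝ) : ℂ)) = Complex.exp (-(Complex.I * (α : ℂ))) := by
      push_cast
      rw [mul_neg]
    rw [this]
  simp_rw [hin]
  rw [intervalIntegral.integral_comp_neg (fun x => radial197 G x), neg_zero]
  have hper := (radial_periodic197 G).intervalIntegral_add_eq (-(2 * Real.pi)) (-Real.pi)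
  rw [show -(2 * Real.pi) + 2 * Real.pi = 0 by ring,
    show -Real.pi + 2 * Real.pi = Real.pi by ring] at hper
  rw [hper, intervalIntegral.integral_of_le (by linarith [Real.pi_pos]),
    integral_Ioc_eq_integral_Ioo]
  -- Fubini
  have hI := integrableOn_polarFun197 G hG C hC
  have hF : ∫ p in Ioi (0 : ℝ) ×ˢ Ioo (-Real.pi) Real.pi, polarFun197 G p
      = ∫ θ in Ioo (-Real.pi) Real.pi, ∫ r in Ioi (0 : ℝ), polarFun197 G (r, θ) := by
    have hI' : Integrable (polarFun197 G)
        ((volume.restrict (Ioi (0 : ℝ))).prod (volume.restrict (Ioo (-Real.pi) Real.pi))) := by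
      rw [Measure.prod_restrict]
      exact hI
    have := integral_prod_symm (polarFun197 G) hI'
    rw [Measure.prod_restrict] at this
    exact this
  have hP := Complex.integral_comp_polarCoord_symm (fun z => G z * (rho197 z : ℂ))
  rw [polarCoord_target] at hP
  rw [← hP]
  have hP' : (∫ p in Ioi (0 : ℝ) ×ˢ Ioo (-Real.pi) Real.pi,
      p.1 • (G (Complex.polarCoord.symm p) * (rho197 (Complex.polarCoord.symm p) : ℂ)))
      = ∫ p in Ioi (0 : ℝ) ×ˢ Ioo (-Real.pi) Real.pi, polarFun197 G p := rfl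
  rw [hP', hF]
  refine setIntegral_congr_fun measurableSet_Ioo fun θ _ => ?_
  simp only [radial197]
  refine setIntegral_congr_fun measurableSet_Ioi fun r _ => ?_
  exact (polarFun_apply197 G r θ).symm

end Fermat.Agent.LT.T2.H197
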